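import Fermat.Agent.StronglyMinimal.Models
import Mathlib.ModelTheory.Algebra.Field.IsAlgClosed
import Mathlib.Algebra.AlgebraicCard

/-!
# Algebraically closed fields are strongly minimal

Minimality follows from a countability test through compactness, and the test holds because the
automorphisms over a countable ring are transitive on the transcendental elements.
-/

set_option autoImplicit false

universe u v

namespace FA.StronglyMinimal

open FirstOrder Language Cardinal FA.Morley

/-- If in all models one side of each definable set is countable then all models are minimal. -/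
theorem isMinimal_of_countable {L : Language.{u, v}} {T : L.Theory}
    (h : ∀ (N : Theory.ModelType.{u, v, max u v} T) (k : ℕ) (ψ : L.Formula (Fin k ⊕ Fin 1))
      (f : Fin k → N), (solSet ψ f).Countable ∨ (solSet ψ f)ᶜ.Countable)
    (M : Theory.ModelType.{u, v, max u v} T) : IsMinimal L M := by
  intro k ψ f
  by_contra hno
  rw [not_or] at hno
  classical
  let I : Type (max u v) := ULift (ℕ → Bool)
  have hI : ¬Countable I := fun hc => by
    have : Countable (ℕ → Bool) := Equiv.ulift.symm.injective.countable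
    obtain ⟨g, hg⟩ := exists_surjective_nat (ℕ → Bool)
    obtain ⟨m, hm⟩ := hg fun n => !g n n
    simpa using congrFun hm m
  let Ω : Type (max u v) := Fin k ⊕ (I ⊕ I)
  let pos : I → L.Formula Ω := fun i =>
    ψ.relabel (Sum.elim (fun j => (Sum.inl j : Ω)) fun _ => Sum.inr (Sum.inl i))
  let neg : I → L.Formula Ω := fun i =>
    ψ.not.relabel (Sum.elim (fun j => (Sum.inl j : Ω)) fun _ => Sum.inr (Sum.inr i))
  let dis : (I ⊕ I) × (I ⊕ I) → L.Formula Ω := fun q =>
    (Term.equal (.var (Sum.inr q.1 : Ω)) (.var (Sum.inr q.2 : Ω))).not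
  let Γ : Set (L.Formula Ω) := Set.range pos ∪ Set.range neg ∪ dis '' {q | q.1 ≠ q.2}
  have hfin : ∀ s : Finset (L.Formula Ω), (s : Set _) ⊆ Γ →
      ∃ (K : Theory.ModelType.{u, v, max u v} T) (x : Ω → K), ∀ φ ∈ s, φ.Realize x := by
    intro s hs
    have huse : ∀ φ : s, ∃ U : Finset (I ⊕ I), (∃ i, φ.1 = pos i ∧ Sum.inl i ∈ U) ∨
        (∃ i, φ.1 = neg i ∧ Sum.inr i ∈ U) ∨
        ∃ q, φ.1 = dis q ∧ q.1 ≠ q.2 ∧ q.1 ∈ U ∧ q.2 ∈ U := fun φ => by
      rcases hs φ.2 with (⟨i, hi⟩ | ⟨i, hi⟩) | ⟨q, hq, he⟩
      exacts [⟨{Sum.inl i}, .inl ⟨i, hi.symm, by simp⟩⟩,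
        ⟨{Sum.inr i}, .inr (.inl ⟨i, hi.symm, by simp⟩)⟩,
        ⟨{q.1, q.2}, .inr (.inr ⟨q, he.symm, hq, by simp, by simp⟩)⟩]
    choose U hU using huse
    let W := Finset.univ.biUnion U
    let zp := Set.Infinite.natEmbedding _ hno.1
    let zn := Set.Infinite.natEmbedding _ hno.2
    let num : I ⊕ I → ℕ := fun i => if hi : i ∈ W then (W.equivFin ⟨i, hi⟩ : ℕ) else 0
    have hnum : ∀ i ∈ W, ∀ j ∈ W, num i = num j → i = j := fun i hi j hj h => by
      simp only [num, dif_pos hi, dif_pos hj] at h
      exact congrArg Subtype.val (W.equivFin.injective (Fin.ext h))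
    let x : Ω → M := Sum.elim f fun i => i.elim (fun a => (zp (num (Sum.inl a)) : M))
      fun a => (zn (num (Sum.inr a)) : M)
    refine ⟨M, x, fun φ hφ => ?_⟩
    have hW : ∀ i ∈ U ⟨φ, hφ⟩, i ∈ W := fun i hi =>
      Finset.mem_biUnion.2 ⟨_, Finset.mem_univ _, hi⟩
    rcases hU ⟨φ, hφ⟩ with ⟨i, rfl, -⟩ | ⟨i, rfl, -⟩ | ⟨q, rfl, hne, h1, h2⟩
    · rw [Formula.realize_relabel, show x ∘ (Sum.elim (fun j => (Sum.inl j : Ω))
        fun _ : Fin 1 => Sum.inr (Sum.inl i)) = Sum.elim f fun _ => (zp (num (Sum.inl i)) : M) from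
        funext fun j => by rcases j with j | j <;> rfl]
      exact (zp (num (Sum.inl i))).2
    · rw [Formula.realize_relabel, show x ∘ (Sum.elim (fun j => (Sum.inl j : Ω))
        fun _ : Fin 1 => Sum.inr (Sum.inr i)) = Sum.elim f fun _ => (zn (num (Sum.inr i)) : M) from
        funext fun j => by rcases j with j | j <;> rfl, Formula.realize_not]
      exact (zn (num (Sum.inr i))).2
    · simp only [dis, Formula.realize_not, Formula.realize_equal, Term.realize_var, x, Sum.elim_inr]
      have hn := fun h => hne (hnum _ (hW _ h1) _ (hW _ h2) h)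
      obtain ⟨a | a, b | b⟩ := q
      · exact fun h => hn (zp.injective (Subtype.ext h))
      · intro h
        simp only [Sum.elim_inl, Sum.elim_inr] at h
        exact (zn (num (Sum.inr b))).2 (h ▸ (zp (num (Sum.inl a))).2)
      · intro h
        simp only [Sum.elim_inl, Sum.elim_inr] at h
        exact (zn (num (Sum.inr a))).2 (h.symm ▸ (zp (num (Sum.inl b))).2)
      · exact fun h => hn (zn.injective (Subtype.ext h))
  obtain ⟨K, x, hx⟩ := Interpolation.exists_realize T Γ hfin
  have hdis : Function.Injective fun i : I ⊕ I => x (Sum.inr i) := fun i j hij => by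
    by_contra hne
    have := hx _ (.inr ⟨(i, j), hne, rfl⟩)
    simp only [dis, Formula.realize_not, Formula.realize_equal, Term.realize_var] at this
    exact this hij
  have hp : ∀ i, x (Sum.inr (Sum.inl i)) ∈ solSet ψ fun j => x (Sum.inl j) := fun i => by
    have := hx _ (.inl (.inl ⟨i, rfl⟩))
    rw [Formula.realize_relabel] at this
    rw [mem_solSet]
    convert this using 2
    funext j
    rcases j with j | j <;> rfl
  have hn : ∀ i, x (Sum.inr (Sum.inr i)) ∈ (solSet ψ fun j => x (Sum.inl j))ᶜ := fun i => by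
    have := hx _ (.inl (.inr ⟨i, rfl⟩))
    rw [Formula.realize_relabel] at this
    rw [← solSet_not, mem_solSet]
    convert this using 2
    funext j
    rcases j with j | j <;> rfl
  rcases h K k ψ (fun j => x (Sum.inl j)) with hc | hc
  · have := hc.to_subtype
    exact hI (Function.Injective.countable (f := fun i => (⟨_, hp i⟩ : solSet ψ _))
      fun i j he => Sum.inl_injective (hdis (congrArg Subtype.val he)))
  · have := hc.to_subtype
    exact hI (Function.Injective.countable
      (f := fun i => (⟨_, hn i⟩ : ((solSet ψ fun j => x (Sum.inl j))ᶜ : Set K)))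
      fun i j he => Sum.inr_injective (hdis (congrArg Subtype.val he)))

section Fields

variable {K : Type} [Field K] [IsAlgClosed K]

/-- **Transcendental elements are conjugate** over a countable subring of an uncountable
algebraically closed field. -/
theorem exists_ringEquiv_fixing {A : Subalgebra ℤ K} [Countable A] (hK : ℵ₀ < #K) {s t : K}
    (hs : Transcendental A s) (ht : Transcendental A t) :
    ∃ σ : K ≃+* K, (∀ x ∈ A, σ x = x) ∧ σ s = t := by
  classical
  have hbasis : ∀ {a : K}, Transcendental A a →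
      ∃ S : Set K, a ∈ S ∧ IsTranscendenceBasis A (Subtype.val : S → K) := fun {a} ha => by
    have hind : AlgebraicIndepOn A id ({a} : Set K) :=
      (algebraicIndependent_singleton_iff (⟨a, rfl⟩ : ({a} : Set K))).2 ha
    obtain ⟨S, hS, hSb⟩ := exists_isTranscendenceBasis_superset hind
    exact ⟨S, hS rfl, hSb⟩
  obtain ⟨S, hsS, hS⟩ := hbasis hs
  obtain ⟨U, htU, hU⟩ := hbasis ht
  have hcA : #A ≤ ℵ₀ := mk_le_aleph0
  have hcard : #S = #U :=
    (IsAlgClosed.cardinal_eq_cardinal_transcendence_basis_of_aleph0_lt' _ hS hcA hK).symm.trans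
      (IsAlgClosed.cardinal_eq_cardinal_transcendence_basis_of_aleph0_lt' _ hU hcA hK)
  obtain ⟨e₀⟩ := Cardinal.eq.1 hcard
  let e : S ≃ U := e₀.trans (Equiv.swap (e₀ ⟨s, hsS⟩) ⟨t, htU⟩)
  have he : e ⟨s, hsS⟩ = ⟨t, htU⟩ := by simp [e]
  have := IsAlgClosed.isAlgClosure_of_transcendence_basis _ hS
  have := IsAlgClosed.isAlgClosure_of_transcendence_basis _ hU
  let eA : Algebra.adjoin A (Set.range (Subtype.val : S → K)) ≃ₐ[A]
      Algebra.adjoin A (Set.range (Subtype.val : U → K)) :=
    hS.1.aevalEquiv.symm.trans ((MvPolynomial.renameEquiv A e).trans hU.1.aevalEquiv)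
  let σ := IsAlgClosure.equivOfEquiv K K eA.toRingEquiv
  have key : ∀ p : MvPolynomial S A,
      σ (MvPolynomial.aeval (Subtype.val : S → K) p) =
        MvPolynomial.aeval (Subtype.val : U → K) (MvPolynomial.rename e p) := fun p => by
    rw [← hS.1.algebraMap_aevalEquiv p, IsAlgClosure.equivOfEquiv_algebraMap,
      ← hU.1.algebraMap_aevalEquiv]
    congr 1
    simp [eA]
  refine ⟨σ, fun x hx => ?_, ?_⟩
  · have := key (MvPolynomial.C (⟨x, hx⟩ : A))
    rw [MvPolynomial.rename_C, MvPolynomial.aeval_C, MvPolynomial.aeval_C] at this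
    exact this
  · have := key (MvPolynomial.X ⟨s, hsS⟩)
    rwa [MvPolynomial.rename_X, MvPolynomial.aeval_X, MvPolynomial.aeval_X, he] at this

/-- In an algebraically closed field one side of every definable set is countable. -/
theorem countable_or_countable_compl [Ring.CompatibleRing K] {k : ℕ}
    (ψ : Language.ring.Formula (Fin k ⊕ Fin 1)) (f : Fin k → K) :
    (solSet ψ f).Countable ∨ (solSet ψ f)ᶜ.Countable := by
  by_cases hK : #K ≤ ℵ₀
  · have : Countable K := mk_le_aleph0_iff.1 hK
    exact .inl (Set.to_countable _)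
  rw [not_le] at hK
  let A : Subalgebra ℤ K := Algebra.adjoin ℤ (Set.range f)
  have : Countable A := by
    have hP : Countable (MvPolynomial (Fin k) ℤ) := mk_le_aleph0_iff.1
      (MvPolynomial.cardinalMk_le_max.trans (by simp))
    exact Set.countable_coe_iff.2 (by
      change ((Algebra.adjoin ℤ (Set.range f) : Subalgebra ℤ K) : Set K).Countable
      rw [Algebra.adjoin_range_eq_range_aeval, AlgHom.coe_range]
      exact Set.countable_range _)
  have halg : Set.Countable {x : K | IsAlgebraic A x} := Algebraic.countable A K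
  by_cases h : ∃ s, s ∈ solSet ψ f ∧ Transcendental A s
  · obtain ⟨s, hs, hst⟩ := h
    refine .inr (halg.mono fun t ht => by_contra fun htt => ht ?_)
    obtain ⟨σ, hσ, hσs⟩ := exists_ringEquiv_fixing hK hst htt
    have hr := StrongHomClass.realize_formula
      ((Ring.languageEquivEquivRingEquiv).symm σ) ψ (v := Sum.elim f fun _ => s)
    have e : (⇑((Ring.languageEquivEquivRingEquiv).symm σ) ∘ Sum.elim f fun _ : Fin 1 => s) =
        Sum.elim f fun _ => t := funext fun i => by
      rcases i with i | i
      · exact hσ _ (Algebra.subset_adjoin ⟨i, rfl⟩)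
      · exact hσs
    rw [e] at hr
    exact hr.2 hs
  · exact .inl (halg.mono fun s hs => by_contra fun hst => h ⟨s, hs, hst⟩)

end Fields

open FirstOrder.Field FirstOrder.Ring in
/-- **The theory of algebraically closed fields of a given characteristic is strongly minimal.** -/
theorem isStronglyMinimal_ACF {p : ℕ} (hp : p.Prime ∨ p = 0) :
    IsStronglyMinimal (Theory.ACF p) := by
  refine ⟨ACF_isComplete hp, fun M => ?_, isMinimal_of_countable fun N k ψ f => ?_⟩
  · let _ := fieldOfModelACF p M
    have := modelField_of_modelACF p M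
    let _ := compatibleRingOfModelField M
    have := isAlgClosed_of_model_ACF p M
    infer_instance
  · let _ := fieldOfModelACF p N
    have := modelField_of_modelACF p N
    let _ := compatibleRingOfModelField N
    have := isAlgClosed_of_model_ACF p N
    exact countable_or_countable_compl ψ f

end FA.StronglyMinimal
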