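import Fermat.Agent.Morley.Maps

/-!
# Algebraic closure in minimal structures

Solution sets of formulas in one variable, their finiteness as a family of first order statements,
algebraic closure, and the exchange property in a minimal structure.
-/

set_option autoImplicit false

universe u v w w' x y

namespace FA.StronglyMinimal

open FirstOrder Language Cardinal FA.Morley Set

variable {L : Language.{u, v}} {M : Type w} [L.Structure M] {N : Type w'} [L.Structure N]
  {P : Type x} {Q : Type y}

/-- The solutions of a formula in one variable with parameters. -/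
def solSet (ψ : L.Formula (P ⊕ Fin 1)) (f : P → M) : Set M :=
  {a | ψ.Realize (Sum.elim f fun _ => a)}

theorem mem_solSet {ψ : L.Formula (P ⊕ Fin 1)} {f : P → M} {a : M} :
    a ∈ solSet ψ f ↔ ψ.Realize (Sum.elim f fun _ => a) :=
  Iff.rfl

theorem solSet_relabel (r : P → Q) (ψ : L.Formula (P ⊕ Fin 1)) (g : Q → M) :
    solSet (ψ.relabel (Sum.map r id)) g = solSet ψ (g ∘ r) := by
  ext a
  rw [mem_solSet, mem_solSet, Formula.realize_relabel, Sum.elim_comp_map, Function.comp_id]

theorem solSet_not (ψ : L.Formula (P ⊕ Fin 1)) (f : P → M) :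
    solSet ψ.not f = (solSet ψ f)ᶜ :=
  Set.ext fun _ => Formula.realize_not

theorem solSet_inf (ψ χ : L.Formula (P ⊕ Fin 1)) (f : P → M) :
    solSet (ψ ⊓ χ) f = solSet ψ f ∩ solSet χ f :=
  Set.ext fun _ => Formula.realize_inf

/-- At least `n` solutions. -/
noncomputable def atLeast (n : ℕ) (ψ : L.Formula (P ⊕ Fin 1)) : L.Formula P :=
  Formula.iExs (β := Fin n)
    ((Formula.iInf fun i : Fin n => ψ.relabel (Sum.elim Sum.inl fun _ => Sum.inr i)) ⊓
      Formula.iInf fun p : {p : Fin n × Fin n // p.1 ≠ p.2} =>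
        (Term.equal (.var (Sum.inr p.1.1)) (.var (Sum.inr p.1.2))).not)

theorem realize_atLeast {n : ℕ} {ψ : L.Formula (P ⊕ Fin 1)} {f : P → M} :
    (atLeast n ψ).Realize f ↔
      ∃ z : Fin n → M, Function.Injective z ∧ ∀ i, z i ∈ solSet ψ f := by
  have e : ∀ (z : Fin n → M) (i : Fin n),
      Sum.elim f z ∘ Sum.elim Sum.inl (fun _ : Fin 1 => Sum.inr i) =
        Sum.elim f fun _ => z i := fun z i => funext fun j => by rcases j with j | j <;> rfl
  simp only [atLeast, Formula.realize_iExs, Formula.realize_inf, Formula.realize_iInf,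
    Formula.realize_relabel, Formula.realize_not, Formula.realize_equal, Term.realize_var,
    Sum.elim_inr, e, Subtype.forall, Prod.forall, mem_solSet]
  refine exists_congr fun z => ?_
  rw [and_comm]
  refine and_congr_left fun _ => ⟨fun h i j hij => by_contra fun hne => h i j hne hij, ?_⟩
  exact fun h i j hne hij => hne (h hij)

/-- Finiteness of the solutions is a statement about the parameters. -/
theorem finite_solSet_iff {ψ : L.Formula (P ⊕ Fin 1)} {f : P → M} :
    (solSet ψ f).Finite ↔ ∃ n, ¬(atLeast n ψ).Realize f := by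
  constructor
  · intro h
    refine ⟨h.toFinset.card + 1, fun hn => ?_⟩
    obtain ⟨z, hz, hmem⟩ := realize_atLeast.1 hn
    have := Finset.card_le_card_of_injOn z (s := Finset.univ) (t := h.toFinset)
      (fun i _ => by simpa using hmem i) hz.injOn
    simp at this
  · rintro ⟨n, hn⟩
    by_contra hinf
    exact hn (realize_atLeast.2 ⟨fun i => Set.Infinite.natEmbedding _ hinf i,
      fun i j h => Fin.ext ((Set.Infinite.natEmbedding _ hinf).injective (Subtype.ext h)),
      fun i => (Set.Infinite.natEmbedding _ hinf i).2⟩)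

/-- A parametrised formula as a formula with one free variable. -/
def ofPFormula (φ : PFormula L P) : L.Formula (Fin φ.1 ⊕ Fin 1) :=
  φ.2.1.relabel (Fin.lastCases (Sum.inr 0) Sum.inl)

theorem solSet_ofPFormula (φ : PFormula L P) (f : P → M) :
    solSet (ofPFormula φ) (f ∘ φ.2.2) = solutions f φ := by
  ext a
  have e : Sum.elim (f ∘ φ.2.2) (fun _ : Fin 1 => a) ∘ Fin.lastCases (Sum.inr 0) Sum.inl =
      (Fin.snoc (f ∘ φ.2.2) a : Fin (φ.1 + 1) → M) :=
    funext fun i => by induction i using Fin.lastCases <;> simp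
  rw [mem_solSet, ofPFormula, Formula.realize_relabel, e]
  rfl

theorem solSet_eq_solutions (ψ : L.Formula (P ⊕ Fin 1)) (f : P → M) :
    solutions f (toPFormula ψ) = solSet ψ f :=
  Set.ext fun a => holds_toPFormula ψ f a

/-- Equivalent families satisfy the same formulas. -/
theorem elemEquiv_realize {f : P → M} {g : P → N} (h : ElemEquiv L f g) (φ : L.Formula P) :
    φ.Realize f ↔ φ.Realize g := by
  classical
  let s := BoundedFormula.freeVarFinset φ
  let φ' : L.Formula (Fin s.card) := BoundedFormula.restrictFreeVar φ fun i => s.equivFin i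
  have key : ∀ {K : Type w} [L.Structure K] (k : P → K),
      φ'.Realize (k ∘ fun j => (s.equivFin.symm j).1) ↔ φ.Realize k := fun {K} _ k =>
    BoundedFormula.realize_restrictFreeVar k fun i => by simp
  have key' : ∀ {K : Type w'} [L.Structure K] (k : P → K),
      φ'.Realize (k ∘ fun j => (s.equivFin.symm j).1) ↔ φ.Realize k := fun {K} _ k =>
    BoundedFormula.realize_restrictFreeVar k fun i => by simp
  rw [← key f, ← key' g]
  exact h _ φ' _

theorem finite_solSet_congr {f : P → M} {g : P → N} (h : ElemEquiv L f g)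
    (ψ : L.Formula (P ⊕ Fin 1)) : (solSet ψ f).Finite ↔ (solSet ψ g).Finite := by
  simp only [finite_solSet_iff, elemEquiv_realize h]

theorem nonempty_solSet_congr {f : P → M} {g : P → N} (h : ElemEquiv L f g)
    (ψ : L.Formula (P ⊕ Fin 1)) : (solSet ψ f).Nonempty ↔ (solSet ψ g).Nonempty := by
  have key : ∀ {K : Type w} [L.Structure K] (k : P → K),
      (solSet ψ k).Nonempty ↔ (atLeast 1 ψ).Realize k := fun {K} _ k => by
    rw [realize_atLeast]
    exact ⟨fun ⟨a, ha⟩ => ⟨fun _ => a, Function.injective_of_subsingleton _, fun _ => ha⟩,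
      fun ⟨z, _, hz⟩ => ⟨z 0, hz 0⟩⟩
  have key' : ∀ {K : Type w'} [L.Structure K] (k : P → K),
      (solSet ψ k).Nonempty ↔ (atLeast 1 ψ).Realize k := fun {K} _ k => by
    rw [realize_atLeast]
    exact ⟨fun ⟨a, ha⟩ => ⟨fun _ => a, Function.injective_of_subsingleton _, fun _ => ha⟩,
      fun ⟨z, _, hz⟩ => ⟨z 0, hz 0⟩⟩
  rw [key f, key' g]
  exact elemEquiv_realize h _

theorem subset_solSet_congr {f : P → M} {g : P → N} (h : ElemEquiv L f g)
    (ψ χ : L.Formula (P ⊕ Fin 1)) : solSet ψ f ⊆ solSet χ f ↔ solSet ψ g ⊆ solSet χ g := by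
  have := not_congr (nonempty_solSet_congr h (ψ ⊓ χ.not))
  simpa [solSet_inf, solSet_not, Set.not_nonempty_iff_eq_empty, ← Set.sdiff_eq,
    Set.sdiff_eq_empty] using this

/-- A structure is minimal if the definable sets in one variable are finite or cofinite. -/
def IsMinimal (L : Language.{u, v}) (M : Type w) [L.Structure M] : Prop :=
  ∀ (k : ℕ) (ψ : L.Formula (Fin k ⊕ Fin 1)) (f : Fin k → M),
    (solSet ψ f).Finite ∨ (solSet ψ f)ᶜ.Finite

theorem IsMinimal.finite_or (hM : IsMinimal L M) (ψ : L.Formula (P ⊕ Fin 1)) (f : P → M) :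
    (solSet ψ f).Finite ∨ (solSet ψ f)ᶜ.Finite := by
  rw [← solSet_eq_solutions, ← solSet_ofPFormula]
  exact hM _ _ _

/-- An algebraic point over a family. -/
def Algebraic (L : Language.{u, v}) {M : Type w} [L.Structure M] {P : Type x} (f : P → M)
    (a : M) : Prop :=
  ∃ ψ : L.Formula (P ⊕ Fin 1), a ∈ solSet ψ f ∧ (solSet ψ f).Finite

/-- The algebraic closure of a set. -/
def acl (L : Language.{u, v}) {M : Type w} [L.Structure M] (A : Set M) : Set M :=
  {a | Algebraic L (Subtype.val : A → M) a}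

theorem Algebraic.of_range_subset {f : P → M} {g : Q → M} (h : range f ⊆ range g) {a : M}
    (ha : Algebraic L f a) : Algebraic L g a := by
  choose r hr using fun p => h (mem_range_self p)
  obtain ⟨ψ, hmem, hfin⟩ := ha
  have e : solSet (ψ.relabel (Sum.map r id)) g = solSet ψ f := by
    rw [solSet_relabel, show g ∘ r = f from funext hr]
  exact ⟨_, e ▸ hmem, e ▸ hfin⟩

theorem algebraic_iff_mem_acl {f : P → M} {a : M} : Algebraic L f a ↔ a ∈ acl L (range f) :=
  ⟨Algebraic.of_range_subset (by rw [Subtype.range_coe]),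
    Algebraic.of_range_subset (by rw [Subtype.range_coe])⟩

theorem acl_mono {A B : Set M} (h : A ⊆ B) : acl L A ⊆ acl L B :=
  fun _ => Algebraic.of_range_subset (by simpa using h)

theorem subset_acl (A : Set M) : A ⊆ acl L A := fun a ha => by
  have e : solSet (Term.equal (L := L) (.var (Sum.inr 0)) (.var (Sum.inl ⟨a, ha⟩)))
      (Subtype.val : A → M) = {a} := by
    ext b
    simp [mem_solSet, Formula.realize_equal]
  exact ⟨_, e.ge rfl, e ▸ finite_singleton a⟩

/-- Algebraicity uses finitely many parameters. -/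
theorem exists_finite_of_mem_acl {A : Set M} {a : M} (ha : a ∈ acl L A) :
    ∃ F ⊆ A, F.Finite ∧ a ∈ acl L F := by
  obtain ⟨ψ, hmem, hfin⟩ := ha
  rw [← solSet_eq_solutions, ← solSet_ofPFormula] at hmem hfin
  exact ⟨range ((Subtype.val : A → M) ∘ (toPFormula ψ).2.2),
    range_subset_iff.2 fun j => ((toPFormula ψ).2.2 j).2, finite_range _,
    algebraic_iff_mem_acl.1 ⟨_, hmem, hfin⟩⟩

/-- **Algebraic closure is idempotent.** -/
theorem acl_acl (A : Set M) : acl L (acl L A) = acl L A := by
  refine Subset.antisymm (fun a ha => ?_) (subset_acl _)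
  obtain ⟨ψ, hmem, hfin⟩ := ha
  rw [← solSet_eq_solutions, ← solSet_ofPFormula] at hmem hfin
  generalize ofPFormula (toPFormula ψ) = ψ₀, (toPFormula ψ).2.2 = c₀ at hmem hfin
  obtain ⟨n, hn⟩ := finite_solSet_iff.1 hfin
  have hθ : ∀ j, Algebraic L (Subtype.val : A → M) (c₀ j : M) := fun j => (c₀ j).2
  choose θ hθm hθf using hθ
  let Φ : L.Formula ((A ⊕ Fin 1) ⊕ Fin (toPFormula ψ).1) :=
    (Formula.iInf fun j => (θ j).relabel (Sum.elim (Sum.inl ∘ Sum.inl) fun _ => Sum.inr j)) ⊓
      ((ψ₀.relabel (Sum.elim Sum.inr fun _ => Sum.inl (Sum.inr 0))) ⊓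
        (atLeast n ψ₀).not.relabel Sum.inr)
  have e : solSet (Formula.iExs (β := Fin (toPFormula ψ).1) Φ) (Subtype.val : A → M) =
      {a | ∃ z : Fin (toPFormula ψ).1 → M, (∀ j, z j ∈ solSet (θ j) (Subtype.val : A → M)) ∧
        a ∈ solSet ψ₀ z ∧ ¬(atLeast n ψ₀).Realize z} := by
    ext b
    simp only [Φ, mem_solSet, mem_ofPred_eq, Formula.realize_iExs, Formula.realize_inf,
      Formula.realize_iInf, Formula.realize_relabel, Formula.realize_not]
    refine exists_congr fun z => and_congr (forall_congr' fun j => iff_of_eq (congrArg _ ?_))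
      (and_congr (iff_of_eq (congrArg _ ?_)) Iff.rfl)
    · funext i; rcases i with i | i <;> rfl
    · funext i; rcases i with i | i <;> rfl
  refine ⟨_, e.ge ⟨_, hθm, hmem, hn⟩, e ▸ ?_⟩
  refine (((Finite.pi fun j => hθf j).subset (sep_subset _ fun z => ¬(atLeast n ψ₀).Realize z)
    ).biUnion fun z hz => finite_solSet_iff.2 ⟨n, hz.2⟩).subset ?_
  rintro b ⟨z, h1, h2, h3⟩
  exact mem_biUnion (x := z) ⟨fun j _ => h1 j, h3⟩ h2

theorem acl_subset_acl {A B : Set M} (h : A ⊆ acl L B) : acl L A ⊆ acl L B :=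
  (acl_mono h).trans (acl_acl B).subset

/-- **Exchange.** -/
theorem IsMinimal.exchange (hM : IsMinimal L M) {f : P → M} {a b : M}
    (ha : Algebraic L (fun o : Option P => o.elim b f) a) (hna : ¬Algebraic L f a) :
    Algebraic L (fun o : Option P => o.elim a f) b := by
  obtain ⟨ψ, hψ, hfin⟩ := ha
  obtain ⟨n, hn⟩ := finite_solSet_iff.1 hfin
  let θ : L.Formula ((P ⊕ Fin 1) ⊕ Fin 1) :=
    ψ.relabel (Sum.elim (fun o => o.elim (Sum.inr 0) fun p => Sum.inl (Sum.inl p))
        fun _ => Sum.inl (Sum.inr 0)) ⊓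
      (atLeast n ψ).not.relabel fun o => o.elim (Sum.inr 0) fun p => Sum.inl (Sum.inl p)
  have hθ : ∀ x y, y ∈ solSet θ (Sum.elim f fun _ => x) ↔
      x ∈ solSet ψ (fun o => o.elim y f) ∧ ¬(atLeast n ψ).Realize (fun o => o.elim y f) := by
    intro x y
    simp only [θ, mem_solSet, Formula.realize_inf, Formula.realize_relabel, Formula.realize_not]
    refine and_congr (iff_of_eq (congrArg _ ?_)) (not_congr (iff_of_eq (congrArg _ ?_)))
    · funext i; rcases i with (_ | i) | i <;> rfl
    · funext i; rcases i with _ | i <;> rfl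
  by_contra hnb
  have hinf : ¬(solSet θ (Sum.elim f fun _ => a)).Finite := fun hf => hnb
    (Algebraic.of_range_subset (g := fun o : Option P => o.elim a f)
      (f := Sum.elim f fun _ : Fin 1 => a)
      (by rintro _ ⟨p | p, rfl⟩ <;> [exact ⟨some p, rfl⟩; exact ⟨none, rfl⟩])
      ⟨θ, (hθ a b).2 ⟨hψ, hn⟩, hf⟩)
  have hco := (hM.finite_or θ _).resolve_left hinf
  rw [← solSet_not] at hco
  obtain ⟨l, hl⟩ := finite_solSet_iff.1 hco
  let χ : L.Formula (P ⊕ Fin 1) := (atLeast l θ.not).not
  have haχ : a ∈ solSet χ f := Formula.realize_not.2 hl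
  have hχ : (solSet χ f).Infinite := fun hf => hna ⟨χ, haχ, hf⟩
  let z : Fin n → M := fun i => hχ.natEmbedding _ i
  have hz : Function.Injective z := fun i j h =>
    Fin.ext ((hχ.natEmbedding _).injective (Subtype.ext h))
  have hzc : ∀ i, (solSet θ (Sum.elim f fun _ => z i))ᶜ.Finite := fun i => by
    rw [← solSet_not]
    exact finite_solSet_iff.2 ⟨l, Formula.realize_not.1 (hχ.natEmbedding _ i).2⟩
  have : Infinite M := ⟨fun _ => hχ (toFinite _)⟩
  obtain ⟨y, hy⟩ := (finite_iUnion hzc).exists_notMem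
  simp only [mem_iUnion, mem_compl_iff, not_exists, not_not] at hy
  rcases Nat.eq_zero_or_pos n with rfl | hn0
  · exact hn (realize_atLeast.2
      ⟨Fin.elim0, Function.injective_of_subsingleton _, fun i => i.elim0⟩)
  · exact ((hθ _ y).1 (hy ⟨0, hn0⟩)).2 (realize_atLeast.2 ⟨z, hz, fun i => ((hθ _ y).1 (hy i)).1⟩)

/-- **Exchange for sets.** -/
theorem IsMinimal.mem_acl_insert (hM : IsMinimal L M) {A : Set M} {a b : M}
    (ha : a ∈ acl L (insert b A)) (hna : a ∉ acl L A) : b ∈ acl L (insert a A) := by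
  have e : ∀ c : M, range (fun o : Option A => o.elim c Subtype.val) = insert c A := fun c => by
    ext x
    constructor
    · rintro ⟨_ | p, rfl⟩
      exacts [.inl rfl, .inr p.2]
    · rintro (rfl | hx)
      exacts [⟨none, rfl⟩, ⟨some ⟨x, hx⟩, rfl⟩]
  have h := hM.exchange (f := (Subtype.val : A → M))
    (algebraic_iff_mem_acl.2 (by rwa [e])) hna
  rwa [algebraic_iff_mem_acl, e] at h

/-- Elementary embeddings preserve and reflect algebraicity. -/
theorem algebraic_map_iff (e : M ↪ₑ[L] N) {f : P → M} {a : M} :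
    Algebraic L (e ∘ f) (e a) ↔ Algebraic L f a := by
  refine exists_congr fun ψ => and_congr ?_ (finite_solSet_congr (elemEquiv_map e f) ψ).symm
  rw [mem_solSet, mem_solSet, elemEquiv_realize (elemEquiv_map e (Sum.elim f fun _ => a)) ψ]
  exact iff_of_eq (congrArg _ (funext fun i => by rcases i with i | i <;> rfl))

end FA.StronglyMinimal
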