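import Fermat.Agent.StronglyMinimal.Closure
import Mathlib.Combinatorics.Matroid.Rank.Cardinal
import Mathlib.ModelTheory.Encoding

/-!
# The pregeometry of a minimal structure

Independent sets form a finitary matroid, so all bases have one size, the dimension, which bounds
the size of the structure.
-/

set_option autoImplicit false

universe u v w

namespace FA.StronglyMinimal

open FirstOrder Language Cardinal Set

variable {L : Language.{u, v}} {M : Type w} [L.Structure M]

/-- No point is algebraic over the others. -/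
def IsIndependent (L : Language.{u, v}) {M : Type w} [L.Structure M] (B : Set M) : Prop :=
  ∀ b ∈ B, b ∉ acl L (B \ {b})

/-- A basis: independent and spanning. -/
def IsBasis (L : Language.{u, v}) {M : Type w} [L.Structure M] (B : Set M) : Prop :=
  IsIndependent L B ∧ acl L B = Set.univ

theorem IsIndependent.subset {A B : Set M} (h : IsIndependent L B) (hAB : A ⊆ B) :
    IsIndependent L A :=
  fun b hb hmem => h b (hAB hb) (acl_mono (sdiff_subset_sdiff_left hAB) hmem)

theorem IsIndependent.insert_of_notMem (hM : IsMinimal L M) {B : Set M} {a : M}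
    (h : IsIndependent L B) (ha : a ∉ acl L B) : IsIndependent L (insert a B) := by
  rintro x (rfl | hx) hmem
  · refine ha (acl_mono ?_ hmem)
    simp
  · by_cases hxa : x = a
    · exact ha (hxa ▸ subset_acl B hx)
    have e : insert a B \ {x} = insert a (B \ {x}) := by
      ext y
      simp only [mem_sdiff, mem_insert_iff, mem_singleton_iff]
      constructor
      · rintro ⟨h1 | h1, h2⟩
        exacts [.inl h1, .inr ⟨h1, h2⟩]
      · rintro (rfl | ⟨h1, h2⟩)
        exacts [⟨.inl rfl, fun h => hxa h.symm⟩, ⟨.inr h1, h2⟩]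
    rw [e] at hmem
    have := hM.mem_acl_insert hmem (h x hx)
    rw [insert_sdiff_singleton, insert_eq_of_mem hx] at this
    exact ha this

theorem isIndependent_of_finite_subsets {B : Set M}
    (h : ∀ F, F ⊆ B → F.Finite → IsIndependent L F) : IsIndependent L B := by
  intro b hb hmem
  obtain ⟨F, hF, hFf, hbF⟩ := exists_finite_of_mem_acl hmem
  refine h (insert b F) (insert_subset hb (hF.trans sdiff_subset)) (hFf.insert b) b
    (mem_insert b F) (acl_mono ?_ hbF)
  exact fun y hy => ⟨mem_insert_of_mem b hy, (hF hy).2⟩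

/-- **The lemma of Steinitz.** -/
theorem IsIndependent.ncard_le (hM : IsMinimal L M) : ∀ (m : ℕ) {I J : Set M},
    IsIndependent L J → J.Finite → I.Finite → J ⊆ acl L I → (J \ I).ncard = m →
      J.ncard ≤ I.ncard := by
  intro m
  induction m using Nat.strong_induction_on with
  | _ m ih =>
    intro I J hJ hJf hIf hsub hm
    by_cases hJI : J ⊆ I
    · exact ncard_le_ncard hJI hIf
    obtain ⟨b, hbJ, hbI⟩ := not_subset.1 hJI
    obtain ⟨i, hiI, hi⟩ : ∃ i ∈ I, i ∉ acl L (J \ {b}) := by
      by_contra! hall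
      exact hJ b hbJ (acl_subset_acl hall (hsub hbJ))
    have hne : i ∉ J \ {b} := fun h => hi (subset_acl _ h)
    have hJ' := (hJ.subset sdiff_subset).insert_of_notMem hM hi
    have hlt : (insert i (J \ {b}) \ I).ncard < m := by
      rw [← hm, insert_sdiff_of_mem _ hiI]
      exact ncard_lt_ncard ⟨sdiff_subset_sdiff_left sdiff_subset,
        fun h => (h ⟨hbJ, hbI⟩).1.2 rfl⟩ hJf.sdiff
    have := ih _ hlt hJ' (hJf.sdiff.insert i) hIf
      (insert_subset (subset_acl _ hiI) (sdiff_subset.trans hsub)) rfl
    rw [ncard_insert_of_notMem hne hJf.sdiff, ncard_sdiff_singleton_add_one hbJ hJf] at this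
    exact this

/-- The matroid of a minimal structure. -/
noncomputable def indepMatroid (hM : IsMinimal L M) : IndepMatroid M :=
  IndepMatroid.ofFinitaryCardAugment Set.univ (IsIndependent L)
    (fun b hb => absurd hb (notMem_empty b))
    (fun _ _ h hsub => h.subset hsub)
    (fun I J hI hIf hJ hJf hlt => by
      by_contra! hno
      refine absurd (hJ.ncard_le hM _ hJf hIf (fun e he => ?_) rfl) (not_le.2 hlt)
      by_cases heI : e ∈ I
      · exact subset_acl I heI
      · exact by_contra fun h => hno e he heI (hI.insert_of_notMem hM h))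
    (fun _ => isIndependent_of_finite_subsets) fun _ _ => subset_univ _

theorem isBase_iff (hM : IsMinimal L M) {B : Set M} :
    (indepMatroid hM).matroid.IsBase B ↔ IsBasis L B := by
  rw [Matroid.isBase_iff_maximal_indep]
  change Maximal (IsIndependent L) B ↔ _
  constructor
  · refine fun h => ⟨h.prop, eq_univ_of_forall fun a => by_contra fun ha => ?_⟩
    have := h.le_of_ge (h.prop.insert_of_notMem hM ha) (subset_insert a B) (mem_insert a B)
    exact ha (subset_acl B this)
  · rintro ⟨hB, hsp⟩
    refine ⟨hB, fun B' hB' hsub x hx => by_contra fun hxB => hB' x hx ?_⟩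
    have h1 : B ⊆ B' \ {x} := fun y hy => ⟨hsub hy, fun h => hxB (h ▸ hy)⟩
    exact acl_mono h1 (hsp ▸ mem_univ x)

/-- Every independent set extends to a basis. -/
theorem exists_isBasis_superset (hM : IsMinimal L M) {I : Set M} (hI : IsIndependent L I) :
    ∃ B, I ⊆ B ∧ IsBasis L B := by
  obtain ⟨B, hB, hIB⟩ := (show (indepMatroid hM).matroid.Indep I from hI).exists_isBase_superset
  exact ⟨B, hIB, (isBase_iff hM).1 hB⟩

theorem exists_isBasis (hM : IsMinimal L M) : ∃ B : Set M, IsBasis L B := by
  obtain ⟨B, -, hB⟩ := exists_isBasis_superset (L := L) hM (I := (∅ : Set M))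
    fun b hb => absurd hb (notMem_empty b)
  exact ⟨B, hB⟩

/-- **All bases have one size.** -/
theorem IsBasis.mk_eq (hM : IsMinimal L M) {B B' : Set M} (hB : IsBasis L B)
    (hB' : IsBasis L B') : #B = #B' := by
  have : (indepMatroid hM).matroid.Finitary := by
    unfold indepMatroid IndepMatroid.ofFinitaryCardAugment
    infer_instance
  exact ((isBase_iff hM).2 hB).cardinalMk_eq ((isBase_iff hM).2 hB')

/-- The dimension. -/
noncomputable def dimension (L : Language.{u, v}) (M : Type w) [L.Structure M] : Cardinal.{w} :=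
  sInf ((fun B : Set M => #B) '' {B | IsBasis L B})

theorem IsBasis.mk_eq_dimension (hM : IsMinimal L M) {B : Set M} (hB : IsBasis L B) :
    #B = dimension L M := by
  obtain ⟨B', hB', he⟩ := csInf_mem (show ((fun B : Set M => #B) '' {B | IsBasis L B}).Nonempty from
    ⟨_, B, hB, rfl⟩)
  rw [dimension, ← he]
  exact hB.mk_eq hM hB'

/-- A structure is no larger than a spanning set and the language. -/
theorem mk_le_of_acl_eq_univ {M : Type (max u v)} [L.Structure M] {B : Set M}
    (hB : acl L B = Set.univ) : #M ≤ max ℵ₀ (#B + L.card) := by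
  let F : L.Formula (B ⊕ Fin 1) → Set M := fun ψ =>
    {a | a ∈ solSet ψ (Subtype.val : B → M) ∧ (solSet ψ (Subtype.val : B → M)).Finite}
  have hF : ∀ ψ, #(F ψ) ≤ ℵ₀ := fun ψ => by
    by_cases h : (solSet ψ (Subtype.val : B → M)).Finite
    · exact (h.subset fun a ha => ha.1).countable.le_aleph0
    · rw [show F ψ = ∅ from eq_empty_of_forall_notMem fun a ha => h ha.2]
      simp
  have hu : (Set.univ : Set M) ⊆ ⋃ ψ, F ψ := fun a _ => by
    obtain ⟨ψ, hψ⟩ := (hB ▸ mem_univ a : a ∈ acl L B)
    exact mem_iUnion.2 ⟨ψ, hψ⟩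
  have hcard : #(L.Formula (B ⊕ Fin 1)) ≤ max ℵ₀ (#B + L.card) := by
    refine (mk_le_of_injective (sigma_mk_injective (i := 0))).trans
      ((BoundedFormula.card_le (L := L) (α := B ⊕ Fin 1)).trans (max_le (le_max_left _ _) ?_))
    simp only [Cardinal.lift_id, mk_sum, mk_fintype, Fintype.card_fin, Nat.cast_one,
      lift_one, lift_id']
    rcases lt_or_ge (#B + L.card) ℵ₀ with h | h
    · refine le_trans ?_ (le_max_left _ _)
      rw [add_lt_aleph0_iff] at h
      exact (add_lt_aleph0 (add_lt_aleph0 h.1 one_lt_aleph0) h.2).le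
    · refine le_trans ?_ (le_max_right _ _)
      rw [add_right_comm, add_one_eq h]
  calc #M = #(Set.univ : Set M) := mk_univ.symm
    _ ≤ #(⋃ ψ, F ψ) := mk_le_mk_of_subset hu
    _ ≤ Cardinal.sum fun ψ => #(F ψ) := mk_iUnion_le_sum_mk
    _ ≤ Cardinal.sum fun _ : L.Formula (B ⊕ Fin 1) => ℵ₀ := sum_le_sum _ _ hF
    _ = #(L.Formula (B ⊕ Fin 1)) * ℵ₀ := by simp [sum_const]
    _ ≤ max ℵ₀ (#B + L.card) * ℵ₀ := by gcongr
    _ = max ℵ₀ (#B + L.card) := mul_aleph0_eq (le_max_left _ _)

end FA.StronglyMinimal
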