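import Fermat.Agent.StronglyMinimal.Dimension

/-!
# Models of a strongly minimal theory

A bijection of independent sets is elementary and extends over the algebraic closures. So the
dimension determines the model, every size of basis above the least occurs, and the theory is
categorical above the language.
-/

set_option autoImplicit false

universe u v w w'

namespace FA.StronglyMinimal

open FirstOrder Language Cardinal FA.Morley

variable {L : Language.{u, v}}

section Pairs

variable {M : Type w} [L.Structure M] {N : Type w'} [L.Structure N]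

/-- A set of pairs that preserves all formulas. -/
def IsPartialElementary (L : Language.{u, v}) {M : Type w} [L.Structure M] {N : Type w'}
    [L.Structure N] (R : Set (M × N)) : Prop :=
  ElemEquiv L (fun p : R => p.1.1) fun p : R => p.1.2

theorem IsPartialElementary.swap {R : Set (M × N)} (h : IsPartialElementary L R) :
    IsPartialElementary L (Prod.swap '' R) := by
  have hmem : ∀ q : Prod.swap '' R, q.1.swap ∈ R := fun q => by
    obtain ⟨p, hp, hq⟩ := q.2
    rw [← hq, Prod.swap_swap]
    exact hp
  exact h.symm.comp fun q : Prod.swap '' R => (⟨q.1.swap, hmem q⟩ : R)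

theorem IsPartialElementary.insert_pair {R : Set (M × N)} {a : M} {b : N}
    (hext : ∀ ψ : L.Formula (R ⊕ Fin 1),
      a ∈ solSet ψ (fun p : R => p.1.1) ↔ b ∈ solSet ψ fun p : R => p.1.2) :
    IsPartialElementary L (insert (a, b) R) := by
  classical
  have hb : ∀ φ : PFormula L R,
      Holds (fun p : R => p.1.1) φ a ↔ Holds (fun p : R => p.1.2) φ b := fun φ => by
    have := hext ((ofPFormula φ).relabel (Sum.map φ.2.2 id))
    rw [solSet_relabel, solSet_relabel, solSet_ofPFormula, solSet_ofPFormula] at this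
    exact this
  let r : (insert (a, b) R : Set (M × N)) → Option R := fun q =>
    if h : q.1 ∈ R then some ⟨q.1, h⟩ else none
  have h := (ElemEquiv.extend hb).comp r
  have e1 : (fun o : Option R => o.elim a fun p => p.1.1) ∘ r = fun q => q.1.1 := funext fun q => by
    by_cases hq : q.1 ∈ R
    · simp [r, hq]
    · simp only [Function.comp_apply, r, dif_neg hq, Option.elim_none]
      rw [q.2.resolve_right hq]
  have e2 : (fun o : Option R => o.elim b fun p => p.1.2) ∘ r = fun q => q.1.2 := funext fun q => by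
    by_cases hq : q.1 ∈ R
    · simp [r, hq]
    · simp only [Function.comp_apply, r, dif_neg hq, Option.elim_none]
      rw [q.2.resolve_right hq]
  rwa [e1, e2] at h

omit [L.Structure N] in
theorem mem_acl_fst_iff {R : Set (M × N)} {a : M} :
    Algebraic L (fun p : R => p.1.1) a ↔ a ∈ acl L (Prod.fst '' R) := by
  rw [algebraic_iff_mem_acl, ← Set.image_eq_range]

omit [L.Structure M] in
theorem mem_acl_snd_iff {R : Set (M × N)} {b : N} :
    Algebraic L (fun p : R => p.1.2) b ↔ b ∈ acl L (Prod.snd '' R) := by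
  rw [algebraic_iff_mem_acl, ← Set.image_eq_range]

/-- **An elementary map extends over algebraic points.** -/
theorem IsPartialElementary.exists_insert {R : Set (M × N)} (h : IsPartialElementary L R) {a : M}
    (ha : a ∈ acl L (Prod.fst '' R)) : ∃ b, IsPartialElementary L (insert (a, b) R) := by
  classical
  have hex : ∃ n, ∃ ψ : L.Formula (R ⊕ Fin 1), a ∈ solSet ψ (fun p : R => p.1.1) ∧
      (solSet ψ fun p : R => p.1.1).Finite ∧ (solSet ψ fun p : R => p.1.1).ncard = n :=
    let ⟨ψ, h1, h2⟩ := mem_acl_fst_iff.2 ha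
    ⟨_, ψ, h1, h2, rfl⟩
  obtain ⟨ψ, hψ, hfin, hcard⟩ := Nat.find_spec hex
  obtain ⟨b, hb⟩ := (nonempty_solSet_congr h ψ).1 ⟨a, hψ⟩
  have key : ∀ χ : L.Formula (R ⊕ Fin 1), a ∈ solSet χ (fun p : R => p.1.1) →
      b ∈ solSet χ fun p : R => p.1.2 := fun χ hχ => by
    refine (subset_solSet_congr h ψ χ).1 (fun c hc => by_contra fun hno => ?_) hb
    have hlt : (solSet (ψ ⊓ χ) fun p : R => p.1.1).ncard < Nat.find hex := by
      rw [solSet_inf, ← hcard]
      exact Set.ncard_lt_ncard ⟨Set.inter_subset_left, fun hsub => hno (hsub hc).2⟩ hfin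
    exact Nat.find_min hex hlt ⟨ψ ⊓ χ, by rw [solSet_inf]; exact ⟨hψ, hχ⟩,
      by rw [solSet_inf]; exact hfin.inter_of_left _, rfl⟩
  refine ⟨b, IsPartialElementary.insert_pair fun χ => ⟨key χ, fun hbχ => by_contra fun hno => ?_⟩⟩
  have := key χ.not (by rw [solSet_not]; exact hno)
  rw [solSet_not] at this
  exact this hbχ

/-- **Generic points have one type.** -/
theorem IsPartialElementary.insert_generic (hM : IsMinimal L M)
    {R : Set (M × N)} (h : IsPartialElementary L R) {a : M} {b : N}
    (ha : a ∉ acl L (Prod.fst '' R)) (hb : b ∉ acl L (Prod.snd '' R)) :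
    IsPartialElementary L (insert (a, b) R) := by
  refine IsPartialElementary.insert_pair fun ψ => ?_
  rcases hM.finite_or ψ fun p : R => p.1.1 with hf | hf
  · exact iff_of_false (fun hm => ha (mem_acl_fst_iff.1 ⟨ψ, hm, hf⟩))
      fun hm => hb (mem_acl_snd_iff.1 ⟨ψ, hm, (finite_solSet_congr h ψ).1 hf⟩)
  · rw [← solSet_not] at hf
    refine iff_of_true (by_contra fun hm => ha (mem_acl_fst_iff.1 ⟨ψ.not, ?_, hf⟩))
      (by_contra fun hm => hb (mem_acl_snd_iff.1 ⟨ψ.not, ?_, (finite_solSet_congr h ψ.not).1 hf⟩))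
    · rw [solSet_not]
      exact hm
    · rw [solSet_not]
      exact hm

theorem IsPartialElementary.left_unique {R : Set (M × N)} (h : IsPartialElementary L R) {a a' : M}
    {b b' : N} (hp : (a, b) ∈ R) (hq : (a', b') ∈ R) : a = a' ↔ b = b' :=
  h.apply_eq_iff ⟨_, hp⟩ ⟨_, hq⟩

/-- Over spanning domains a maximal elementary map is total, and onto over spanning ranges. -/
theorem IsPartialElementary.exists_total {R₀ : Set (M × N)} (h : IsPartialElementary L R₀)
    (hdom : acl L (Prod.fst '' R₀) = Set.univ) :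
    ∃ R, R₀ ⊆ R ∧ IsPartialElementary L R ∧ (∀ a, ∃ b, (a, b) ∈ R) ∧
      (acl L (Prod.snd '' R₀) = Set.univ → ∀ b, ∃ a, (a, b) ∈ R) := by
  obtain ⟨R, hR₀, hR⟩ := zorn_subset_nonempty {R : Set (M × N) | IsPartialElementary L R}
    (fun c hc hchain hne => ⟨⋃₀ c, fun k φ t => by
      classical
      have hfin : (Set.range fun j => (t j : M × N)).Finite := Set.finite_range _
      obtain ⟨R, hRc, hsub⟩ := hchain.directedOn.exists_mem_subset_of_finite_of_subset_sUnion hne
        hfin (Set.range_subset_iff.2 fun j => (t j).2)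
      exact hc hRc k φ fun j => ⟨t j, hsub ⟨j, rfl⟩⟩, fun R hR => Set.subset_sUnion_of_mem hR⟩)
    R₀ h
  refine ⟨R, hR₀, hR.prop, fun a => ?_, fun himg b => ?_⟩
  · obtain ⟨b, hb⟩ := hR.prop.exists_insert (a := a)
      (acl_mono (Set.image_mono hR₀) (hdom ▸ Set.mem_univ a))
    exact ⟨b, hR.le_of_ge hb (Set.subset_insert _ _) (Set.mem_insert _ _)⟩
  · obtain ⟨a, ha⟩ := hR.prop.swap.exists_insert (a := b) (by
      rw [Set.image_image]
      exact acl_mono (Set.image_mono hR₀) (himg ▸ Set.mem_univ b))
    have h' := ha.swap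
    rw [Set.image_insert_eq, Set.image_image] at h'
    simp only [Prod.swap_swap, Set.image_id', Prod.swap_prod_mk] at h'
    exact ⟨a, hR.le_of_ge h' (Set.subset_insert _ _) (Set.mem_insert _ _)⟩

/-- **Injections of independent sets are elementary.** -/
theorem isPartialElementary_graph (hM : IsMinimal L M)
    (hMN : M ≅[L] N) {B : Set M} {C : Set N} (hB : IsIndependent L B) (hC : IsIndependent L C)
    (e : B ↪ C) : IsPartialElementary L (Set.range fun b : B => ((b : M), (e b : N))) := by
  classical
  let g : B → M × N := fun b => ((b : M), (e b : N))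
  have hfin : ∀ s : Finset B, IsPartialElementary L (g '' s) := by
    intro s
    induction s using Finset.induction_on with
    | empty =>
      intro k φ t
      rcases k with - | k
      · have e₁ : ∀ {K : Type w} [L.Structure K] (x : Fin 0 → K),
            φ.Realize x ↔ K ⊨ (φ.relabel Fin.elim0 : L.Sentence) := fun {K} _ x => by
          rw [Sentence.Realize, Formula.realize_relabel]
          exact iff_of_eq (congrArg _ (Subsingleton.elim _ _))
        have e₂ : ∀ {K : Type w'} [L.Structure K] (x : Fin 0 → K),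
            φ.Realize x ↔ K ⊨ (φ.relabel Fin.elim0 : L.Sentence) := fun {K} _ x => by
          rw [Sentence.Realize, Formula.realize_relabel]
          exact iff_of_eq (congrArg _ (Subsingleton.elim _ _))
        rw [e₁, e₂]
        exact hMN.realize_sentence _
      · exact absurd (t 0).2 (by simp)
    | insert b s hbs ih =>
      rw [Finset.coe_insert, Set.image_insert_eq]
      refine ih.insert_generic hM (fun hmem => hB b b.2 (acl_mono ?_ hmem))
        fun hmem => hC (e b) (e b).2 (acl_mono ?_ hmem)
      · rintro _ ⟨_, ⟨c, hc, rfl⟩, rfl⟩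
        exact ⟨c.2, fun h => hbs (Subtype.ext h ▸ hc)⟩
      · rintro _ ⟨_, ⟨c, hc, rfl⟩, rfl⟩
        exact ⟨(e c).2, fun h => hbs (e.injective (Subtype.ext h) ▸ hc)⟩
  intro k φ t
  choose b hb using fun j => (t j).2
  exact hfin (Finset.univ.image b) k φ fun j =>
    ⟨(t j : M × N), ⟨b j, by simp, hb j⟩⟩

/-- An injection of a basis into an independent set extends to an elementary embedding. -/
theorem exists_embedding_extending (hM : IsMinimal L M) (hMN : M ≅[L] N)
    {B : Set M} {C : Set N} (hB : IsBasis L B) (hC : IsIndependent L C) (e : B ↪ C) :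
    ∃ F : M ↪ₑ[L] N, (∀ b : B, F b = e b) ∧
      (Function.Surjective e → acl L C = Set.univ → Function.Surjective F) := by
  have h₀ := isPartialElementary_graph hM hMN hB.1 hC e
  have hfst : Prod.fst '' (Set.range fun b : B => ((b : M), (e b : N))) = B := by
    rw [← Set.range_comp]
    exact Subtype.range_coe
  obtain ⟨R, hsub, hR, htot, honto⟩ := h₀.exists_total (by rw [hfst]; exact hB.2)
  choose F hF using htot
  have hall : ElemEquiv L (id : M → M) F :=
    hR.comp fun a : M => (⟨(a, F a), hF a⟩ : R)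
  refine ⟨⟨F, fun k φ a => (hall k φ a).symm⟩, fun b => ?_, fun hes hsp b => ?_⟩
  · exact ((hR.left_unique (hF b) (hsub ⟨b, rfl⟩)).1 rfl)
  · obtain ⟨a, ha⟩ := honto (by
      rw [← Set.range_comp, show (Prod.snd ∘ fun b : B => ((b : M), (e b : N))) =
        (Subtype.val ∘ e) from rfl, hes.range_comp, Subtype.range_coe]
      exact hsp) b
    exact ⟨a, (hR.left_unique (hF a) ha).1 rfl⟩

theorem mem_acl_image_iff (e : M ↪ₑ[L] N) {A : Set M} {a : M} :
    e a ∈ acl L (e '' A) ↔ a ∈ acl L A := by
  refine Iff.trans ?_ (algebraic_map_iff e (f := (Subtype.val : A → M)))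
  rw [algebraic_iff_mem_acl, Set.range_comp, Subtype.range_coe]

/-- **An infinite algebraically closed set is an elementary substructure.** -/
theorem exists_elementarySubstructure_acl (hM : IsMinimal L M) {A : Set M}
    (hA : (acl L A).Infinite) : ∃ S : L.ElementarySubstructure M, (S : Set M) = acl L A := by
  obtain ⟨S, hS⟩ := exists_elementary_range (L := L) (Subtype.val : acl L A → M) fun φ ⟨a, ha⟩ => by
    have e := solSet_ofPFormula φ (Subtype.val : acl L A → M)
    have ha' : a ∈ solutions (Subtype.val : acl L A → M) φ := ha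
    rw [← e] at ha'
    rcases hM.finite_or (ofPFormula φ) ((Subtype.val : acl L A → M) ∘ φ.2.2) with hf | hf
    · have : a ∈ acl L A := by
        rw [← acl_acl]
        exact Algebraic.of_range_subset (Set.range_comp_subset_range _ _) ⟨_, ha', hf⟩
      exact ⟨⟨a, this⟩, ha⟩
    · obtain ⟨c, hc, hcn⟩ := hA.exists_notMem_finite hf
      rw [Set.mem_compl_iff, not_not, e] at hcn
      exact ⟨⟨c, hc⟩, hcn⟩
  exact ⟨S, hS.trans Subtype.range_coe⟩

end Pairs

/-- A complete theory whose models are infinite and minimal. -/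
structure IsStronglyMinimal (T : L.Theory) : Prop where
  isComplete : T.IsComplete
  infinite : ∀ M : Theory.ModelType.{u, v, max u v} T, Infinite M
  minimal : ∀ M : Theory.ModelType.{u, v, max u v} T, IsMinimal L M

variable {T : L.Theory}

theorem IsStronglyMinimal.elementarilyEquivalent (h : IsStronglyMinimal T)
    (M N : Theory.ModelType.{u, v, max u v} T) : M ≅[L] N :=
  elementarilyEquivalent_iff.2 fun σ => by
    rw [h.isComplete.realize_sentence_iff, h.isComplete.realize_sentence_iff]

/-- **The dimension determines the model.** -/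
theorem IsStronglyMinimal.nonempty_equiv (h : IsStronglyMinimal T)
    {M N : Theory.ModelType.{u, v, max u v} T} (hd : dimension L M = dimension L N) :
    Nonempty (M ≃[L] N) := by
  obtain ⟨B, hB⟩ := exists_isBasis (h.minimal M)
  obtain ⟨C, hC⟩ := exists_isBasis (h.minimal N)
  rw [← hB.mk_eq_dimension (h.minimal M), ← hC.mk_eq_dimension (h.minimal N)] at hd
  obtain ⟨e⟩ := Cardinal.eq.1 hd
  obtain ⟨F, -, honto⟩ := exists_embedding_extending (h.minimal M)
    (h.elementarilyEquivalent M N) hB hC.1 e.toEmbedding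
  exact ⟨⟨Equiv.ofBijective F ⟨F.injective, honto e.surjective hC.2⟩,
    fun {m} g x => F.map_fun g x, fun {m} R x => F.map_rel R x⟩⟩

/-- **The models form a chain.** -/
theorem IsStronglyMinimal.nonempty_embedding (h : IsStronglyMinimal T)
    {M N : Theory.ModelType.{u, v, max u v} T} (hd : dimension L M ≤ dimension L N) :
    Nonempty (M ↪ₑ[L] N) := by
  obtain ⟨B, hB⟩ := exists_isBasis (h.minimal M)
  obtain ⟨C, hC⟩ := exists_isBasis (h.minimal N)
  rw [← hB.mk_eq_dimension (h.minimal M), ← hC.mk_eq_dimension (h.minimal N)] at hd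
  obtain ⟨e⟩ := Cardinal.le_def _ _ |>.1 hd
  obtain ⟨F, -, -⟩ := exists_embedding_extending (h.minimal M)
    (h.elementarilyEquivalent M N) hB hC.1 e
  exact ⟨F⟩

theorem dimension_le_mk {M : Type w} [L.Structure M] (hM : IsMinimal L M) :
    dimension L M ≤ #M := by
  obtain ⟨B, hB⟩ := exists_isBasis hM
  exact hB.mk_eq_dimension hM ▸ mk_set_le B

theorem IsStronglyMinimal.mk_le_dimension (h : IsStronglyMinimal T)
    (M : Theory.ModelType.{u, v, max u v} T) : #M ≤ max ℵ₀ (dimension L M + L.card) := by
  obtain ⟨B, hB⟩ := exists_isBasis (h.minimal M)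
  exact hB.mk_eq_dimension (h.minimal M) ▸ mk_le_of_acl_eq_univ hB.2

/-- **Every dimension above one that occurs also occurs.** -/
theorem IsStronglyMinimal.exists_dimension (h : IsStronglyMinimal T)
    (M₀ : Theory.ModelType.{u, v, max u v} T) {κ : Cardinal.{max u v}}
    (hκ : dimension L M₀ ≤ κ) :
    ∃ M : Theory.ModelType.{u, v, max u v} T, dimension L M = κ := by
  let μ : Cardinal.{max u v} := Order.succ (max κ (max ℵ₀ L.card))
  have hμ : ℵ₀ ≤ μ := ((le_max_left _ _).trans (le_max_right _ _)).trans (Order.le_succ _)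
  obtain ⟨N, hN⟩ := Theory.exists_model_card_eq.{u, v, max u v} (T := T)
    ⟨M₀, h.infinite M₀⟩ μ hμ (by
      simpa using ((le_max_right _ _).trans (le_max_right _ _)).trans (Order.le_succ _))
  obtain ⟨C, hC⟩ := exists_isBasis (h.minimal N)
  have hCκ : κ ≤ #C := by
    by_contra! hlt
    have h1 := mk_le_of_acl_eq_univ hC.2
    rw [hN] at h1
    have h2 : max ℵ₀ (#C + L.card) ≤ max κ (max ℵ₀ L.card) := by
      refine max_le (((le_max_left _ _).trans (le_max_right _ _))) ?_
      refine (add_le_max _ _).trans (max_le (max_le ?_ ?_) ?_)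
      exacts [hlt.le.trans (le_max_left _ _), (le_max_right _ _).trans (le_max_right _ _),
        (le_max_left _ _).trans (le_max_right _ _)]
    exact absurd (h1.trans h2) (not_le.2 (Order.lt_succ _))
  obtain ⟨D, hDC, hD⟩ := Cardinal.le_mk_iff_exists_subset.1 hCκ
  obtain ⟨B, hB⟩ := exists_isBasis (h.minimal M₀)
  have hBD : #B ≤ #D := by rwa [hD, hB.mk_eq_dimension (h.minimal M₀)]
  obtain ⟨e⟩ := Cardinal.le_def _ _ |>.1 hBD
  obtain ⟨F, hF, -⟩ := exists_embedding_extending (h.minimal M₀)
    (h.elementarilyEquivalent M₀ N) hB (hC.1.subset hDC) e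
  have := h.infinite M₀
  have hinf : (acl L D).Infinite := by
    refine (Set.infinite_range_of_injective F.injective).mono ?_
    rintro _ ⟨a, rfl⟩
    have ha : a ∈ acl L B := hB.2 ▸ Set.mem_univ a
    refine acl_mono ?_ ((mem_acl_image_iff F).2 ha)
    rintro _ ⟨b, hb, rfl⟩
    rw [hF ⟨b, hb⟩]
    exact (e ⟨b, hb⟩).2
  obtain ⟨S, hS⟩ := exists_elementarySubstructure_acl (h.minimal N) hinf
  obtain ⟨c, hc⟩ := hinf.nonempty
  rw [← hS] at hc
  have : Nonempty S := ⟨⟨c, hc⟩⟩
  let K := Theory.ModelType.of T S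
  let D' : Set K := {x | (S.subtype x : N) ∈ D}
  have hD' : (S.subtype '' D' : Set N) = D := Set.Subset.antisymm
    (Set.image_subset_iff.2 fun _ hx => hx) fun d hd =>
      ⟨⟨d, show d ∈ (S : Set N) by rw [hS]; exact subset_acl D hd⟩, hd, rfl⟩
  refine ⟨K, ?_⟩
  have hbasis : IsBasis L D' := by
    refine ⟨fun x hx hmem => hC.1.subset hDC (S.subtype x) hx ?_,
      Set.eq_univ_of_forall fun x => (mem_acl_image_iff S.subtype).1 ?_⟩
    · have := (mem_acl_image_iff S.subtype).2 hmem
      refine acl_mono ?_ this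
      rintro _ ⟨y, ⟨hy1, hy2⟩, rfl⟩
      exact ⟨hy1, fun h => hy2 (S.subtype.injective h)⟩
    · rw [hD', ← hS]
      exact x.2
  rw [← hbasis.mk_eq_dimension (h.minimal K), ← hD, ← hD']
  exact (mk_image_eq S.subtype.injective).symm

end FA.StronglyMinimal
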